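import Mathlib.NumberTheory.ModularForms.LevelOne.GradedRing
import Mathlib.NumberTheory.ModularForms.LevelOne.DimensionFormula
import Mathlib.NumberTheory.ModularForms.EisensteinSeries.QExpansion

/-!
# Conjugates of modular forms of level one
-/

set_option autoImplicit false
set_option linter.unusedSectionVars false

noncomputable section

namespace Fermat.Agent.DS4

open UpperHalfPlane hiding I
open ModularForm ModularFormClass MatrixGroups EisensteinSeries

variable (σ : ℂ ≃+* ℂ)

/-- conjugation of power series -/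
def cj : PowerSeries ℂ →+* PowerSeries ℂ := PowerSeries.map (σ : ℂ →+* ℂ)

@[simp] lemma coeff_cj (P : PowerSeries ℂ) (n : ℕ) : (cj σ P).coeff n = σ (P.coeff n) := by
  simp [cj]

lemma cj_smul (a : ℂ) (P : PowerSeries ℂ) : cj σ (a • P) = σ a • cj σ P := by
  ext n
  simp

lemma cj_injective : Function.Injective (cj σ) := by
  intro P Q h
  ext n
  have := congrArg (PowerSeries.coeff n) h
  rw [coeff_cj, coeff_cj] at this
  exact σ.injective this

lemma cj_E {k : ℕ} (hk : 3 ≤ k) (hk2 : Even k) :
    cj σ (qExpansion 1 (E hk)) = qExpansion 1 (E hk) := by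
  ext n
  rw [coeff_cj, E_qExpansion_coeff hk hk2]
  split_ifs
  · exact map_one σ
  · have h2 : σ 2 = 2 := map_ofNat σ 2
    simp [h2]

lemma qExpansion_disc : (1728 : ℂ) • qExpansion 1 ModularForm.discriminant =
    qExpansion 1 E₄ ^ 3 - qExpansion 1 E₆ ^ 2 := by
  have h1 : (1728 : ℂ) • ⇑CuspForm.discriminant =
      ⇑(E₄.pow 3) - ⇑(E₆.pow 2) := by
    funext z
    have := discriminant_eq_E₄_cube_sub_E₆_sq z
    simp only [Pi.smul_apply, Pi.sub_apply, coe_pow, Pi.pow_apply, CuspForm.coe_discriminant,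
      smul_eq_mul]
    rw [this]
    ring
  have h2 := ModularForm.qExpansion_smul (Γ := 𝒮ℒ) one_pos one_mem_strictPeriods_SL 1728
    CuspForm.discriminant
  rw [h1, ModularForm.qExpansion_sub (Γ := 𝒮ℒ) one_pos one_mem_strictPeriods_SL (E₄.pow 3)
    (E₆.pow 2), ModularForm.qExpansion_pow one_pos one_mem_strictPeriods_SL,
    ModularForm.qExpansion_pow one_pos one_mem_strictPeriods_SL] at h2
  exact h2.symm

lemma cj_disc : cj σ (qExpansion 1 ModularForm.discriminant) =
    qExpansion 1 ModularForm.discriminant := by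
  have h1 : (1728 : ℂ) • cj σ (qExpansion 1 ModularForm.discriminant) =
      (1728 : ℂ) • qExpansion 1 ModularForm.discriminant := by
    have h2 := congrArg (cj σ) qExpansion_disc
    rw [cj_smul, map_sub, map_pow, map_pow, cj_E σ (k := 4) (by norm_num) ⟨2, rfl⟩,
      cj_E σ (k := 6) (by norm_num) ⟨3, rfl⟩] at h2
    rw [qExpansion_disc, ← h2]
    congr 1
    exact (map_ofNat σ 1728).symm
  have h3 : (1728 : ℂ) ≠ 0 := by norm_num
  exact smul_right_injective _ h3 h1

/-- conjugates of forms of level one -/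
theorem exists_cj_levelOne (n : ℕ) : ∀ (k : ℤ), k < 12 * (n : ℤ) → ∀ f : ModularForm 𝒮ℒ k,
    ∃ f' : ModularForm 𝒮ℒ k, qExpansion 1 f' = cj σ (qExpansion 1 f) := by
  have zero_case : ∀ (k : ℤ) (f : ModularForm 𝒮ℒ k), (f : ℍ → ℂ) = 0 →
      ∃ f' : ModularForm 𝒮ℒ k, qExpansion 1 f' = cj σ (qExpansion 1 f) := by
    intro k f hf
    refine ⟨f, ?_⟩
    rw [hf, qExpansion_zero, map_zero]
  induction n with
  | zero =>
    intro k hk f
    exact zero_case k f (levelOne_neg_weight_eq_zero (by simpa using hk) f)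
  | succ n ih =>
    intro k hk f
    rcases lt_or_ge k 0 with hk0 | hk0
    · exact zero_case k f (levelOne_neg_weight_eq_zero hk0 f)
    obtain ⟨m, rfl⟩ := Int.eq_ofNat_of_zero_le hk0
    rcases Nat.even_or_odd m with hm | hm
    swap
    · exact zero_case _ f (by
        rw [levelOne_odd_weight_eq_zero (by exact_mod_cast hm) f]; rfl)
    by_cases hm3 : 3 ≤ m
    · -- the main case
      set a : ℂ := (qExpansion 1 f).coeff 0 with ha
      set f1 : ModularForm 𝒮ℒ (m : ℤ) := f - a • E hm3 with hf1
      have hq1 : qExpansion 1 f1 = qExpansion 1 f - a • qExpansion 1 (E hm3) := by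
        rw [hf1, FunLike.coe_sub, ModularForm.qExpansion_sub (Γ := 𝒮ℒ) one_pos
          one_mem_strictPeriods_SL f (a • E hm3)]
        congr 1
        exact ModularForm.qExpansion_smul (Γ := 𝒮ℒ) one_pos one_mem_strictPeriods_SL a (E hm3)
      have hcusp : (qExpansion 1 f1).coeff 0 = 0 := by
        rw [hq1, map_sub, PowerSeries.coeff_smul, E_qExpansion_coeff_zero hm3 hm, ← ha, smul_eq_mul,
          mul_one, sub_self]
      have hq2 := qExpansion_eq_qExpansion_discriminant_mul f1 hcusp
      obtain ⟨g', hg'⟩ := ih ((m : ℤ) - 12) (by push_cast at hk; linarith)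
        (CuspForm.discriminantEquiv (toCuspForm f1 hcusp))
      refine ⟨σ a • E hm3 + (CuspForm.toModularFormₗ (CuspForm.ofMulDiscriminant g')), ?_⟩
      have e1 : ⇑(CuspForm.toModularFormₗ (CuspForm.ofMulDiscriminant g') : ModularForm 𝒮ℒ (m : ℤ)) =
          ⇑CuspForm.discriminant * ⇑g' := rfl
      rw [FunLike.coe_add, ModularForm.qExpansion_add (Γ := 𝒮ℒ) one_pos
        one_mem_strictPeriods_SL (σ a • E hm3)
        (CuspForm.toModularFormₗ (CuspForm.ofMulDiscriminant g') : ModularForm 𝒮ℒ (m : ℤ)), e1,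
        ModularForm.qExpansion_mul_coe (Γ := 𝒮ℒ) one_pos one_mem_strictPeriods_SL
        CuspForm.discriminant g', hg', CuspForm.coe_discriminant]
      have e2 : qExpansion 1 ⇑(σ a • E hm3) = σ a • qExpansion 1 (E hm3) :=
        ModularForm.qExpansion_smul (Γ := 𝒮ℒ) one_pos one_mem_strictPeriods_SL (σ a) (E hm3)
      have e3 : qExpansion 1 f = a • qExpansion 1 (E hm3) + qExpansion 1 f1 := by
        rw [hq1]; abel
      rw [e2, e3, hq2, map_add, map_mul, cj_smul, cj_E σ hm3 hm, cj_disc]
    · -- small weights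
      have hm2 : m = 0 ∨ m = 2 := by
        obtain ⟨j, hj⟩ := hm
        omega
      rcases hm2 with rfl | rfl
      · obtain ⟨c, hc⟩ := levelOne_weight_zero_const f
        have h1 : ∀ c : ℂ, qExpansion 1 (Function.const ℍ c) = c • (1 : PowerSeries ℂ) := by
          intro c
          have e : (Function.const ℍ c) = c • ⇑(1 : ModularForm 𝒮ℒ 0) := by
            funext z
            simp
          rw [e, ← qExpansion_one (h := 1)]
          exact ModularForm.qExpansion_smul (Γ := 𝒮ℒ) one_pos one_mem_strictPeriods_SL c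
            (1 : ModularForm 𝒮ℒ 0)
        refine ⟨ModularForm.const (σ c), ?_⟩
        rw [hc, h1, cj_smul, map_one]
        exact h1 (σ c)
      · refine zero_case _ f ?_
        have := rank_zero_iff_forall_zero.mp levelOne_weight_two_rank_zero f
        rw [this]
        rfl

/-- conjugates of cusp forms of level one -/
theorem exists_cj_cusp {k : ℤ} (f : CuspForm 𝒮ℒ k) :
    ∃ f' : CuspForm 𝒮ℒ k, qExpansion 1 f' = cj σ (qExpansion 1 f) := by
  obtain ⟨g, hg⟩ := exists_cj_levelOne σ (k.toNat + 1) k (by push_cast; omega)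
    (CuspForm.toModularFormₗ f)
  have h0 : (qExpansion 1 g).coeff 0 = 0 := by
    rw [hg, coeff_cj]
    have : (qExpansion 1 f).coeff 0 = 0 :=
      CuspFormClass.qExpansion_coeff_zero f one_pos one_mem_strictPeriods_SL
    have e : (qExpansion 1 (CuspForm.toModularFormₗ f : ModularForm 𝒮ℒ k)).coeff 0 = 0 := this
    rw [e, map_zero]
  exact ⟨toCuspForm g h0, hg⟩

end Fermat.Agent.DS4
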