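import Fermat.Agent.DS4.EisA
import Fermat.Agent.DS4.LvlOne

/-!
# Conjugates of the Eisenstein series
-/

set_option autoImplicit false
set_option linter.unusedSectionVars false
set_option linter.style.haveILetI false

noncomputable section

namespace Fermat.Agent.DS4

open UpperHalfPlane hiding I
open Complex Function
open scoped Real MatrixGroups ModularForm Matrix
open Fermat.Agent.EichlerShimura Fermat.Agent.DS1 Fermat.Agent.ModFun

variable {N : ℕ} [NeZero N] (ε : DirichletCharacter ℂ N)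

/-- convergence of the power series of a function with a `q`-expansion -/
lemma pconv_of_hasSum {c : ℕ → ℂ} {g : ℍ → ℂ}
    (hc : ∀ τ : ℍ, HasSum (fun n : ℕ => c n * Complex.exp (2 * π * I * τ) ^ n) (g τ)) :
    PConv (PowerSeries.mk c) := by
  have h1 : ∀ τ : ℍ, HasSum (fun n : ℕ => c n • Periodic.qParam 1 τ ^ n) (g τ) := fun τ => by
    simpa [Periodic.qParam] using hc τ
  intro z hz
  rcases eq_or_ne z 0 with rfl | hz0
  · refine summable_of_ne_finset_zero (s := {0}) fun n hn => ?_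
    rw [Finset.mem_singleton] at hn
    simp [hn]
  · have h5 := Periodic.im_invQParam_pos_of_norm_lt_one (h := 1) one_pos hz hz0
    have h6 := (h1 ⟨Periodic.invQParam 1 z, h5⟩).summable.norm
    refine h6.congr fun n => ?_
    rw [PowerSeries.coeff_mk, smul_eq_mul]
    congr 3
    exact Periodic.qParam_right_inv one_ne_zero hz0

lemma eA_one (hε : ε (-1) = -1) (a : ℤ) :
    eA ε a 1 = -(2 * π * I) * (2 * (2 * gs ε a - gs ε (2 * a))) := by
  have h1 : ∀ b : ℤ, ec (xi N b) 1 =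
      -(2 * (xi N b - xi N (-b)) - (xi N (2 * b) - xi N (-(2 * b)))) := by
    intro b
    have e1 : (xi N b)⁻¹ = xi N (-b) := by rw [xi_zpow N (-b), zpow_neg, ← xi_zpow]
    have e2 : (xi N b) ^ 2 = xi N (2 * b) := (xi_two N b).symm
    have e3 : ((xi N b) ^ 2)⁻¹ = xi N (-(2 * b)) := by
      rw [e2, xi_zpow N (-(2 * b)), zpow_neg, ← xi_zpow]
    rw [ec, if_neg one_ne_zero, Nat.divisors_one, Finset.sum_singleton, cc, mul_one, pow_one, e1, e3,
      e2]
  have h2 : ∀ a : ℤ, gs ε (-a) = -gs ε a := gs_neg ε hε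
  have h3 : eA ε a 1 = -(2 * π * I) * (2 * (gs ε a - gs ε (-a)) - (gs ε (2 * a) - gs ε (-(2 * a)))) := by
    unfold eA gs
    rw [← Finset.sum_sub_distrib, ← Finset.sum_sub_distrib, Finset.mul_sum, ← Finset.sum_sub_distrib,
      Finset.mul_sum]
    refine Finset.sum_congr rfl fun d _ => ?_
    rw [h1]
    have e1 : -(a * ((d : ZMod N).val : ℤ)) = -a * ((d : ZMod N).val : ℤ) := by ring
    have e2 : 2 * (a * ((d : ZMod N).val : ℤ)) = 2 * a * ((d : ZMod N).val : ℤ) := by ring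
    have e3 : -(2 * a * ((d : ZMod N).val : ℤ)) = -(2 * a) * ((d : ZMod N).val : ℤ) := by ring
    rw [e1, e2, e3]
    ring
  rw [h3, h2, h2]
  ring

lemma map_ec (σ : ℂ ≃+* ℂ) (ξ : ℂ) (n : ℕ) : σ (ec ξ n) = ec (σ ξ) n := by
  have h2 : σ 2 = 2 := map_ofNat σ 2
  have h4 : σ 4 = 4 := map_ofNat σ 4
  unfold ec
  split_ifs
  · rw [map_div₀, map_add, map_add, map_mul, map_mul, map_sub, map_pow, map_one, h2, h4]
  · rw [map_neg, map_sum]
    congr 1
    refine Finset.sum_congr rfl fun d _ => ?_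
    unfold cc
    rw [map_sub, map_mul, map_sub, map_sub, map_inv₀, map_inv₀, map_pow, map_pow, h2]

lemma exists_map_xi (σ : ℂ ≃+* ℂ) : ∃ j : ℤ, IsUnit ((j : ℤ) : ZMod N) ∧
    ∀ b : ℤ, σ (xi N b) = xi N (j * b) := by
  obtain ⟨i, -, hi, h⟩ := (xi_prim (N := N)).isPrimitiveRoot_iff.mp
    ((xi_prim (N := N)).map_of_injective (f := σ) σ.injective)
  refine ⟨i, ?_, fun b => ?_⟩
  · rw [Int.cast_natCast]
    exact (ZMod.isUnit_iff_coprime i N).mpr hi
  · rw [xi_zpow N b, map_zpow₀, ← h, xi_zpow N (i * b), zpow_mul, zpow_natCast]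

theorem pconv_cj_eA {a : ℤ} (h : (a : ZMod N) ≠ 0) (h2 : ((2 * a : ℤ) : ZMod N) ≠ 0)
    (σ : ℂ ≃+* ℂ) : PConv (cj σ (PowerSeries.mk (eA ε a))) := by
  obtain ⟨j, hj, hσ⟩ := exists_map_xi (N := N) σ
  have hpi : (2 * π * I : ℂ) ≠ 0 := Complex.two_pi_I_ne_zero
  have hja : ((j * a : ℤ) : ZMod N) ≠ 0 := by
    push_cast
    intro h0
    exact h ((hj.mul_right_eq_zero).mp h0)
  have hja2 : ((2 * (j * a) : ℤ) : ZMod N) ≠ 0 := by
    push_cast at h2 ⊢
    intro h0
    apply h2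
    refine (hj.mul_right_eq_zero).mp ?_
    rw [← h0]; ring
  have h1 : ∀ τ : ℍ, HasSum (fun n : ℕ => σ (eA ε a n) * Complex.exp (2 * π * I * τ) ^ n)
      (∑ d : (ZMod N)ˣ, (σ (ε (d : ZMod N)) * (σ (2 * π * I) / (2 * π * I))) *
        Kf N (vec (j * a * ((d : ZMod N).val : ℤ))) τ) := by
    intro τ
    have h3 : ∀ d : (ZMod N)ˣ, HasSum (fun n : ℕ =>
        (σ (ε (d : ZMod N)) * (σ (2 * π * I) / (2 * π * I))) *
        ((2 * π * I * ec (xi N (j * a * ((d : ZMod N).val : ℤ))) n) *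
          Complex.exp (2 * π * I * τ) ^ n))
        ((σ (ε (d : ZMod N)) * (σ (2 * π * I) / (2 * π * I))) *
          Kf N (vec (j * a * ((d : ZMod N).val : ℤ))) τ) := fun d =>
      (hasSum_Kf (Nat.pos_of_ne_zero (NeZero.ne N)) (nd_a hja d) (nd_a2 hja2 d) τ).mul_left _
    have h4 := hasSum_sum (s := (Finset.univ : Finset (ZMod N)ˣ)) fun d _ => h3 d
    refine h4.congr_fun ?_ |> fun h => h
    intro n
    unfold eA
    rw [map_sum, Finset.sum_mul]
    refine Finset.sum_congr rfl fun d _ => ?_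
    rw [map_mul, map_mul σ (2 * π * I), map_ec, hσ]
    have e : j * (a * ((d : ZMod N).val : ℤ)) = j * a * ((d : ZMod N).val : ℤ) := by ring
    rw [e]
    field_simp
  have h5 := pconv_of_hasSum h1
  have e : cj σ (PowerSeries.mk (eA ε a)) = PowerSeries.mk fun n => σ (eA ε a n) := by
    ext n
    simp
  rw [e]
  exact h5

end Fermat.Agent.DS4
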