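import Fermat.Agent.ModFun.LevelOne
import Mathlib.Analysis.Meromorphic.NormalForm

/-!
# Quotients of convergent power series
-/

set_option autoImplicit false
set_option linter.unusedSectionVars false
set_option linter.style.haveILetI false

noncomputable section

namespace Fermat.Agent.DS4

open UpperHalfPlane hiding I
open Complex Function Filter Topology Metric
open Fermat.Agent.ModFun

/-- division of convergent power series -/
theorem exists_quot {F A : PowerSeries ℂ} (hF : PConv F) (hA : PConv A) (hA0 : A ≠ 0)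
    (hbd : ∀ z₀ : ℂ, ‖z₀‖ < 1 → ∃ C : ℝ, ∀ᶠ z in 𝓝 z₀, PDisc z → pev A z ≠ 0 →
      ‖pev F z / pev A z‖ ≤ C) :
    ∃ G : PowerSeries ℂ, PConv G ∧ G * A = F := by
  set U : Set ℂ := ball 0 1 with hU
  have hUo : IsOpen U := isOpen_ball
  have hFa : AnalyticOnNhd ℂ (pev F) U := (differentiableOn_pev hF).analyticOnNhd hUo
  have hAa : AnalyticOnNhd ℂ (pev A) U := (differentiableOn_pev hA).analyticOnNhd hUo
  have hmem : ∀ z : ℂ, z ∈ U ↔ ‖z‖ < 1 := fun z => by rw [hU, mem_ball_zero_iff]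
  -- the zeros of `A` are isolated
  have hAz : ∀ z₀ ∈ U, ∀ᶠ z in 𝓝[≠] z₀, pev A z ≠ 0 := by
    intro z₀ hz₀
    by_contra hcon
    have h1 : ∃ᶠ z in 𝓝[≠] z₀, pev A z = 0 := by
      rw [Filter.not_eventually] at hcon
      exact hcon.mono fun z hz => not_not.mp hz
    have h2 := hAa.eqOn_zero_of_preconnected_of_frequently_eq_zero
      (convex_ball (0 : ℂ) 1).isPreconnected hz₀ h1
    refine hA0 (hA.eq_zero fun τ => h2 ?_)
    rw [hmem]
    exact norm_q_lt_one τ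
  set h : ℂ → ℂ := fun z => pev F z / pev A z with hh
  have hmer : MeromorphicOn h U := fun z hz => (hFa z hz).meromorphicAt.div (hAa z hz).meromorphicAt
  set g := toMeromorphicNFOn h U with hg
  have hord : ∀ z₀ ∈ U, 0 ≤ meromorphicOrderAt h z₀ := by
    intro z₀ hz₀
    by_contra hcon
    push Not at hcon
    have h1 := tendsto_cobounded_of_meromorphicOrderAt_neg hcon
    rw [← tendsto_norm_atTop_iff_cobounded] at h1
    obtain ⟨C, hC⟩ := hbd z₀ ((hmem z₀).mp hz₀)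
    have h2 := h1.eventually (eventually_gt_atTop C)
    have h4 : ∀ᶠ z in 𝓝[≠] z₀, PDisc z := by
      have h5 : ∀ᶠ z in 𝓝[≠] z₀, z ≠ 0 := by
        by_cases h0 : z₀ = 0
        · rw [h0]; exact self_mem_nhdsWithin
        · exact nhdsWithin_le_nhds (isOpen_ne.mem_nhds h0)
      have h6 : ∀ᶠ z in 𝓝[≠] z₀, z ∈ U := nhdsWithin_le_nhds (hUo.mem_nhds hz₀)
      filter_upwards [h5, h6] with z h7 h8
      exact ⟨norm_pos_iff.mpr h7, (hmem z).mp h8⟩
    have h3 := (((hAz z₀ hz₀).and (nhdsWithin_le_nhds hC)).and h2).and h4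
    obtain ⟨z, ⟨⟨hz1, hz2⟩, hz3⟩, hz4⟩ := h3.exists
    exact absurd (hz2 hz4 hz1) (not_le.mpr hz3)
  have hgan : ∀ z₀ ∈ U, AnalyticAt ℂ g z₀ := by
    intro z₀ hz₀
    have h1 : MeromorphicNFAt g z₀ := meromorphicNFOn_toMeromorphicNFOn h U hz₀
    rw [← h1.meromorphicOrderAt_nonneg_iff_analyticAt, hg,
      meromorphicOrderAt_toMeromorphicNFOn hmer hz₀]
    exact hord z₀ hz₀
  obtain ⟨G, hG, hGg⟩ := exists_pconv_of_differentiableOn (g := g)
    (fun z hz => (hgan z hz).differentiableAt.differentiableWithinAt)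
  refine ⟨G, hG, (hG.mul hA).eq_of_pev_eq hF fun z hz => ?_⟩
  have hzU : z ∈ U := (hmem z).mpr hz.2
  rw [pev_mul hG hA hz, hGg z hz.2]
  have h1 : Tendsto (fun w => g w * pev A w) (𝓝[≠] z) (𝓝 (g z * pev A z)) :=
    ((hgan z hzU).continuousAt.mul (hAa z hzU).continuousAt).tendsto.mono_left nhdsWithin_le_nhds
  have h2 : Tendsto (fun w => pev F w) (𝓝[≠] z) (𝓝 (pev F z)) :=
    (hFa z hzU).continuousAt.tendsto.mono_left nhdsWithin_le_nhds
  refine tendsto_nhds_unique (h1.congr' ?_) h2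
  filter_upwards [hmer.toMeromorphicNFOn_eq_self_on_nhdsNE hzU, hAz z hzU] with w hw1 hw2
  show g w * pev A w = pev F w
  rw [hg, hw1, hh]
  exact div_mul_cancel₀ _ hw2

/-- roots of monic polynomials are bounded -/
theorem norm_root_le {r : ℕ} (hr : 0 < r) {x : ℂ} {c : ℕ → ℂ}
    (h : x ^ r + ∑ k ∈ Finset.range r, c k * x ^ (r - 1 - k) = 0) :
    ‖x‖ ≤ 1 + ∑ k ∈ Finset.range r, ‖c k‖ := by
  set S := ∑ k ∈ Finset.range r, ‖c k‖ with hS
  have hS0 : 0 ≤ S := Finset.sum_nonneg fun k _ => norm_nonneg _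
  by_contra hcon
  push Not at hcon
  have hx1 : 1 ≤ ‖x‖ := by linarith
  have h1 : ‖x‖ ^ r ≤ S * ‖x‖ ^ (r - 1) := by
    have h2 : x ^ r = -∑ k ∈ Finset.range r, c k * x ^ (r - 1 - k) := eq_neg_of_add_eq_zero_left h
    calc ‖x‖ ^ r = ‖x ^ r‖ := (norm_pow _ _).symm
      _ = ‖∑ k ∈ Finset.range r, c k * x ^ (r - 1 - k)‖ := by rw [h2, norm_neg]
      _ ≤ ∑ k ∈ Finset.range r, ‖c k * x ^ (r - 1 - k)‖ := norm_sum_le _ _
      _ ≤ ∑ k ∈ Finset.range r, ‖c k‖ * ‖x‖ ^ (r - 1) := by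
          refine Finset.sum_le_sum fun k _ => ?_
          rw [norm_mul, norm_pow]
          exact mul_le_mul_of_nonneg_left (pow_le_pow_right₀ hx1 (by omega)) (norm_nonneg _)
      _ = S * ‖x‖ ^ (r - 1) := by rw [← Finset.sum_mul]
  have h3 : ‖x‖ ^ r = ‖x‖ * ‖x‖ ^ (r - 1) := by
    rw [← pow_succ']
    congr 1
    omega
  rw [h3] at h1
  have h4 : 0 < ‖x‖ ^ (r - 1) := by positivity
  have h5 := le_of_mul_le_mul_right h1 h4
  linarith

end Fermat.Agent.DS4
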