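import Fermat.Agent.DS4.NormPoly
import Fermat.Agent.DS4.EisB
import Fermat.Agent.DS4.Quot
import Fermat.Agent.DS1.Pieces
import Fermat.Agent.AnJac.Matr
import Fermat.Agent.S23
import Fermat.Agent.DSLift.QCoeff

/-!
# Conjugates of forms of weight one
-/

set_option autoImplicit false
set_option linter.unusedSectionVars false
set_option linter.style.haveILetI false

noncomputable section

namespace Fermat.Agent.DS4

open UpperHalfPlane hiding I
open Complex Function Filter Topology Metric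
open scoped Real MatrixGroups ModularForm Matrix Manifold
open Matrix.SpecialLinearGroup CongruenceSubgroup
open Fermat.Agent.EichlerShimura Fermat.Agent.DS1 Fermat.Agent.ModFun

variable (σ : ℂ ≃+* ℂ)

/-! ### weight two -/

theorem exists_cj_S2 (N : ℕ) [NeZero N] (F : CuspForm (Gamma0 N) 2) :
    ∃ F' : CuspForm (Gamma0 N) 2, qExpansion 1 F' = cj σ (qExpansion 1 F) := by
  have hint : CuspForm.HasIntegralStructure N 2 := Fermat.Agent.S23.result N
  have h1 : (1 : ℝ) ∈ ((Gamma0 N : Subgroup SL(2, ℤ)) : Subgroup (GL (Fin 2) ℝ)).strictPeriods := by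
    simp
  have hF : F ∈ Submodule.span ℂ ((CuspForm.intLattice N 2 :
      Submodule ℤ (CuspForm (Gamma0 N) 2)) : Set (CuspForm (Gamma0 N) 2)) := by
    rw [hint]; exact Submodule.mem_top
  induction hF using Submodule.span_induction with
  | mem F hF =>
    refine ⟨F, ?_⟩
    ext n
    obtain ⟨m, hm⟩ := (DSLift.mem_intLattice_iff F).mp hF n
    have hm' : (qExpansion 1 F).coeff n = (m : ℂ) := hm
    rw [coeff_cj, hm', map_intCast]
  | zero => exact ⟨0, by rw [FunLike.coe_zero, qExpansion_zero, map_zero]⟩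
  | add F G _ _ ihF ihG =>
    obtain ⟨F', hF'⟩ := ihF
    obtain ⟨G', hG'⟩ := ihG
    refine ⟨F' + G', ?_⟩
    rw [FunLike.coe_add, FunLike.coe_add, ModularForm.qExpansion_add one_pos h1 F G,
      ModularForm.qExpansion_add one_pos h1 F' G', map_add, hF', hG']
  | smul c F _ ihF =>
    obtain ⟨F', hF'⟩ := ihF
    refine ⟨σ c • F', ?_⟩
    have e1 : qExpansion 1 ⇑(c • F) = c • qExpansion 1 F :=
      ModularForm.qExpansion_smul one_pos h1 c F
    have e2 : qExpansion 1 ⇑(σ c • F') = σ c • qExpansion 1 F' :=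
      ModularForm.qExpansion_smul one_pos h1 (σ c) F'
    rw [e1, e2, hF', cj_smul]

/-! ### forms as functions -/

/-- a weight two cusp form from a function -/
def mkCusp0 {N : ℕ} [NeZero N] (g : ℍ → ℂ) (hinv : ∀ γ ∈ Gamma0 N, g ∣[(2 : ℤ)] γ = g)
    (hS : IsS N 2 g) : CuspForm (Gamma0 N) 2 where
  toFun := g
  slash_action_eq' := by
    rintro _ ⟨γ, hγ, rfl⟩
    exact hinv γ hγ
  holo' := by
    have := (hS 1).holo
    rwa [SlashAction.slash_one] at this
  zero_at_cusps' := by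
    intro c hc
    rw [Subgroup.IsArithmetic.isCusp_iff_isCusp_SL2Z] at hc
    rw [OnePoint.isZeroAt_iff_forall_SL2Z hc]
    intro γ _
    exact (hS γ).zero

theorem isS_of_cusp {N : ℕ} [NeZero N] (f : CuspForm (Gamma1 N) 1) : IsS N 1 f := by
  intro δ
  refine ⟨periodic_comp_ofComplex_of fun z w hzw => ?_, ?_, ?_⟩
  · have h1 : w = (ModularGroup.T ^ (N : ℤ)) • z := by
      rw [modular_T_zpow_smul]
      apply UpperHalfPlane.ext
      rw [hzw, UpperHalfPlane.coe_vadd]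
      push_cast; ring
    have hmem : δ * ModularGroup.T ^ N * δ⁻¹ ∈ Gamma1 N := by
      have := AnJac.conj_T_mem_Gamma N δ
      rw [Gamma1_mem]
      rw [Gamma_mem] at this
      exact ⟨this.1, this.2.2.2, this.2.2.1⟩
    have h2 : (⇑f ∣[(1 : ℤ)] δ) ∣[(1 : ℤ)] (ModularGroup.T ^ N) = ⇑f ∣[(1 : ℤ)] δ := by
      have e : δ * ModularGroup.T ^ N = (δ * ModularGroup.T ^ N * δ⁻¹) * δ := by group
      rw [← SlashAction.slash_mul, e, SlashAction.slash_mul]
      congr 1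
      exact f.slash_action_eq' _ ⟨_, hmem, rfl⟩
    have h3 := congrFun h2 z
    rw [ModularForm.SL_slash_apply] at h3
    have h4 : denom ((ModularGroup.T ^ N : SL(2,ℤ)) : GL (Fin 2) ℝ) z = 1 := by
      rw [ModularGroup.denom_apply]
      have := ModularGroup.coe_T_zpow (N : ℤ)
      rw [zpow_natCast] at this
      have e10 : (ModularGroup.T ^ N : SL(2,ℤ)) 1 0 = 0 := congrFun (congrFun this 1) 0
      have e11 : (ModularGroup.T ^ N : SL(2,ℤ)) 1 1 = 1 := congrFun (congrFun this 1) 1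
      rw [e10, e11]
      simp
    rw [h4, one_zpow, mul_one] at h3
    rw [h1, zpow_natCast]
    exact h3
  · exact MDifferentiable.slash f.holo' 1 _
  · have hc : IsCusp (mapGL ℝ δ • OnePoint.infty) 𝒮ℒ := isCusp_SL2Z_iff'.mpr ⟨_, rfl⟩
    have h2 := f.zero_at_cusps' ((Subgroup.IsArithmetic.isCusp_iff_isCusp_SL2Z _).mpr hc)
    rw [OnePoint.isZeroAt_iff_forall_SL2Z hc] at h2
    exact h2 _ rfl

/-! ### the ring of convergent power series -/

/-- the ring of convergent power series -/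
def PC : Subring (PowerSeries ℂ) := convLaurent.comap (HahnSeries.ofPowerSeries ℤ ℂ)

lemma mem_PC {G : PowerSeries ℂ} : G ∈ PC ↔ PConv G :=
  ⟨fun h => PConv.of_mem_convLaurent h, fun h => h.mem_convLaurent⟩

/-- evaluation -/
def evP (z : ℂ) (hz : PDisc z) : PC →+* ℂ :=
  (ev z hz).comp ((HahnSeries.ofPowerSeries ℤ ℂ).restrict PC convLaurent fun _ h => h)

lemma evP_apply {z : ℂ} (hz : PDisc z) (G : PC) : evP z hz G = pev (G : PowerSeries ℂ) z := by
  show evf (HahnSeries.ofPowerSeries ℤ ℂ (G : PowerSeries ℂ)) z = _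
  rw [evf_ofPowerSeries]
  rfl

lemma PC_eq_zero {G : PC} (h : ∀ τ : ℍ, evP _ (pdisc_q τ) G = 0) : G = 0 := by
  apply Subtype.ext
  refine (mem_PC.mp G.2).eq_zero fun τ => ?_
  rw [← evP_apply (pdisc_q τ)]
  exact h τ

lemma IsR.pconv {g : ℍ → ℂ} (hg : IsR 1 g) : PConv (qExpansion 1 g) := by
  have := pconv_of_hasSum (c := qc g) (g := g) hg.hasSum
  have e : PowerSeries.mk (qc g) = qExpansion 1 g := by
    ext n
    simp [qc]
  rwa [e] at this

lemma IsR.pev_q {g : ℍ → ℂ} (hg : IsR 1 g) (τ : ℍ) :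
    pev (qExpansion 1 g) (Periodic.qParam 1 τ) = g τ := by
  have h1 := (IsR.pconv hg).hasSum (norm_q_lt_one τ)
  refine h1.unique ?_
  have h2 := hg.hasSum τ
  have e : Periodic.qParam 1 (τ : ℂ) = Complex.exp (2 * π * I * τ) := by
    simp [Periodic.qParam]
  rw [e]
  exact h2

lemma isR_cusp {k : ℤ} (f : CuspForm 𝒮ℒ k) : IsR 1 f :=
  ⟨SlashInvariantFormClass.periodic_comp_ofComplex f one_mem_strictPeriods_SL,
    f.holo', ModularFormClass.bdd_at_infty f⟩

lemma isR_cusp0 {N : ℕ} [NeZero N] (f : CuspForm (Gamma0 N) 2) : IsR 1 f := by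
  have h1 : (1 : ℝ) ∈ ((Gamma0 N : Subgroup SL(2, ℤ)) : Subgroup (GL (Fin 2) ℝ)).strictPeriods := by
    simp
  exact ⟨SlashInvariantFormClass.periodic_comp_ofComplex f h1, f.holo',
    ModularFormClass.bdd_at_infty f⟩

/-! ### the main theorem -/

theorem odd_of_ne_zero {N : ℕ} [NeZero N] {ε : DirichletCharacter ℂ N} {φ : ℍ → ℂ} (h0 : φ ≠ 0)
    (hf : ∀ γ ∈ Gamma0 N, (φ ∣[(1 : ℤ)] γ) = ε ((γ 1 1 : ℤ) : ZMod N) • φ) : ε (-1) = -1 := by
  obtain ⟨τ, hτ⟩ : ∃ τ, φ τ ≠ 0 := by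
    by_contra hcon
    push Not at hcon
    exact h0 (funext hcon)
  have h1 := congrFun (hf (-1) (by rw [Gamma0_mem]; simp)) τ
  rw [ModularForm.SL_slash_apply] at h1
  have h2 : denom ((-1 : SL(2, ℤ)) : GL (Fin 2) ℝ) τ = -1 := by
    rw [ModularGroup.denom_apply]
    simp
  have h3 : (-1 : SL(2, ℤ)) • τ = τ := by
    rw [ModularGroup.SL_neg_smul, one_smul]
  rw [h2, h3, zpow_neg, zpow_one] at h1
  have h4 : (((-1 : SL(2, ℤ)) 1 1 : ℤ) : ZMod N) = -1 := by simp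
  rw [h4, Pi.smul_apply, smul_eq_mul] at h1
  have h5 : (ε (-1) + 1) * φ τ = 0 := by
    linear_combination -h1
  exact eq_neg_of_add_eq_zero_left ((mul_eq_zero.mp h5).resolve_right hτ)

/-- multiplying a relation -/
theorem mul_rel {R : Type*} [CommRing R] {P Q : R} {c : ℕ → R} {r : ℕ}
    (h : P ^ r + ∑ k ∈ Finset.range r, c k * P ^ (r - 1 - k) = 0) :
    (Q * P) ^ r + ∑ k ∈ Finset.range r, c k * Q ^ (k + 1) * (Q * P) ^ (r - 1 - k) = 0 := by
  have h1 : Q ^ r * (P ^ r + ∑ k ∈ Finset.range r, c k * P ^ (r - 1 - k)) = 0 := by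
    rw [h, mul_zero]
  rw [mul_add, Finset.mul_sum] at h1
  rw [← h1, mul_pow]
  congr 1
  refine Finset.sum_congr rfl fun k hk => ?_
  have hk' := Finset.mem_range.mp hk
  have e : Q ^ r = Q ^ (k + 1) * Q ^ (r - 1 - k) := by
    rw [← pow_add]
    congr 1
    omega
  rw [e, mul_pow]
  ring

/-- evaluating a relation -/
theorem eval_rel {P : PowerSeries ℂ} {c d : ℕ → PowerSeries ℂ} {r : ℕ} (hP : PConv P)
    (hc : ∀ k, PConv (c k)) (hd : ∀ k, PConv (d k))
    (h : P ^ r + ∑ k ∈ Finset.range r, c k * d k * P ^ (r - 1 - k) = 0)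
    {z : ℂ} (hz : PDisc z) :
    pev P z ^ r + ∑ k ∈ Finset.range r, pev (c k) z * pev (d k) z * pev P z ^ (r - 1 - k) = 0 := by
  have h5 : (⟨P, mem_PC.mpr hP⟩ : PC) ^ r + ∑ k ∈ Finset.range r,
      (⟨c k, mem_PC.mpr (hc k)⟩ : PC) * (⟨d k, mem_PC.mpr (hd k)⟩ : PC) *
        (⟨P, mem_PC.mpr hP⟩ : PC) ^ (r - 1 - k) = 0 := by
    apply PC.subtype_injective
    rw [map_add, map_sum, map_pow, map_zero]
    simp only [map_mul, map_pow]
    exact h
  have h6 := congrArg (evP z hz) h5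
  rw [map_add, map_sum, map_pow, map_zero] at h6
  simp only [map_mul, map_pow, evP_apply] at h6
  exact h6

theorem eval_rel' {P : PowerSeries ℂ} {c : ℕ → PowerSeries ℂ} {r : ℕ} (hP : PConv P)
    (hc : ∀ k, PConv (c k))
    (h : P ^ r + ∑ k ∈ Finset.range r, c k * P ^ (r - 1 - k) = 0)
    {z : ℂ} (hz : PDisc z) :
    pev P z ^ r + ∑ k ∈ Finset.range r, pev (c k) z * pev P z ^ (r - 1 - k) = 0 := by
  have := eval_rel (d := fun _ => 1) hP hc (fun _ => pconv_one) (by simpa only [mul_one] using h) hz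
  simpa only [pev_one, mul_one] using this

/-- a relation forces convergence -/
theorem pconv_of_rel {P Q : PowerSeries ℂ} {c : ℕ → PowerSeries ℂ} {r : ℕ} (hr0 : 0 < r)
    (hQ : PConv Q) (hQ0 : Q ≠ 0) (hQP : PConv (Q * P)) (hc : ∀ k, PConv (c k))
    (h : P ^ r + ∑ k ∈ Finset.range r, c k * P ^ (r - 1 - k) = 0) : PConv P := by
  have hrel3 := mul_rel (Q := Q) h
  obtain ⟨G, hG, hGQ⟩ := exists_quot hQP hQ hQ0 (by
    intro z₀ hz₀
    have hcont : ∀ k, ∀ᶠ z in 𝓝 z₀, ‖pev (c k) z‖ ≤ ‖pev (c k) z₀‖ + 1 := by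
      intro k
      have h1 : ContinuousAt (pev (c k)) z₀ :=
        ((differentiableOn_pev (hc k)).differentiableAt
          (isOpen_ball.mem_nhds (by simpa using hz₀))).continuousAt
      have h2 : Tendsto (fun z => ‖pev (c k) z‖) (𝓝 z₀) (𝓝 ‖pev (c k) z₀‖) := h1.norm
      exact h2.eventually (eventually_le_nhds (lt_add_one _))
    have hall : ∀ᶠ z in 𝓝 z₀, ∀ k ∈ Finset.range r, ‖pev (c k) z‖ ≤ ‖pev (c k) z₀‖ + 1 :=
      (Finset.eventually_all _).mpr fun k _ => hcont k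
    refine ⟨1 + ∑ k ∈ Finset.range r, (‖pev (c k) z₀‖ + 1), ?_⟩
    filter_upwards [hall] with z hz hzd hz0
    have h6 := eval_rel hQP hc (fun k => hQ.pow (k + 1)) hrel3 hzd
    simp only [pev_pow hQ hzd] at h6
    refine (norm_root_le hr0 (c := fun k => pev (c k) z) ?_).trans
      (add_le_add_right (Finset.sum_le_sum hz) 1)
    have h7 : pev Q z ^ r * ((pev (Q * P) z / pev Q z) ^ r + ∑ k ∈ Finset.range r,
        pev (c k) z * (pev (Q * P) z / pev Q z) ^ (r - 1 - k)) = 0 := by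
      rw [← h6, mul_add, Finset.mul_sum, div_pow, mul_div_cancel₀ _ (pow_ne_zero r hz0)]
      congr 1
      refine Finset.sum_congr rfl fun k hk => ?_
      have hk' := Finset.mem_range.mp hk
      have e : pev Q z ^ r = pev Q z ^ (k + 1) * pev Q z ^ (r - 1 - k) := by
        rw [← pow_add]
        congr 1
        omega
      have h8 : pev Q z ^ (r - 1 - k) ≠ 0 := pow_ne_zero _ hz0
      rw [e, div_pow]
      field_simp
    exact (mul_eq_zero.mp h7).resolve_left (pow_ne_zero r hz0))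
  have hGP : G = P := by
    have h1 : G * Q = P * Q := by rw [hGQ]; ring
    exact mul_right_cancel₀ hQ0 h1
  exact hGP ▸ hG

/-- the bound -/
theorem bound_of_rel {x : ℍ → ℂ} {r : ℕ} (hr0 : 0 < r) (c : ∀ k : ℕ, CuspForm 𝒮ℒ ((k : ℤ) + 1))
    (h : ∀ τ : ℍ, x τ ^ r + ∑ k ∈ Finset.range r, c k τ * x τ ^ (r - 1 - k) = 0) :
    ∃ C : ℝ, ∀ τ : ℍ, ‖x τ‖ ^ 2 * τ.im ≤ C := by
  choose C hC using fun k => CuspFormClass.exists_bound (c k)
  refine ⟨(1 + ∑ k ∈ Finset.range r, |C k|) ^ 2, fun τ => ?_⟩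
  have hy : 0 < τ.im := τ.im_pos
  set s : ℂ := ((Real.sqrt τ.im : ℝ) : ℂ) with hs
  have h2 := mul_rel (Q := s) (c := fun k => c k τ) (h τ)
  have h3 := norm_root_le hr0 h2
  have h4 : ∀ k, ‖c k τ * s ^ (k + 1)‖ ≤ |C k| := by
    intro k
    have h5 := hC k τ
    have h6 : ‖s‖ = Real.sqrt τ.im := by
      rw [hs, Complex.norm_real, Real.norm_of_nonneg (Real.sqrt_nonneg _)]
    have h7 : τ.im ^ ((((k : ℤ) + 1 : ℤ) : ℝ) / 2) = Real.sqrt τ.im ^ (k + 1) := by
      rw [Real.sqrt_eq_rpow, ← Real.rpow_natCast, ← Real.rpow_mul hy.le]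
      congr 1
      push_cast
      ring
    rw [norm_mul, norm_pow, h6]
    rw [h7] at h5
    have h8 : 0 < Real.sqrt τ.im ^ (k + 1) := pow_pos (Real.sqrt_pos.mpr hy) _
    rw [le_div_iff₀ h8] at h5
    exact h5.trans (le_abs_self _)
  have h5 : ‖s * x τ‖ ≤ 1 + ∑ k ∈ Finset.range r, |C k| :=
    h3.trans (add_le_add_right (Finset.sum_le_sum fun k _ => h4 k) 1)
  have h6 : ‖x τ‖ ^ 2 * τ.im = ‖s * x τ‖ ^ 2 := by
    rw [norm_mul, mul_pow, hs, Complex.norm_real, Real.norm_of_nonneg (Real.sqrt_nonneg _),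
      Real.sq_sqrt hy.le]
    ring
  rw [h6]
  exact pow_le_pow_left₀ (norm_nonneg _) h5 2

/-- the relation for power series -/
theorem rel_series {φ : ℍ → ℂ} (hR : IsR 1 φ) {r : ℕ} (c : ∀ k : ℕ, CuspForm 𝒮ℒ ((k : ℤ) + 1))
    (hc : ∀ τ : ℍ, φ τ ^ r + ∑ k ∈ Finset.range r, c k τ * φ τ ^ (r - 1 - k) = 0) :
    qExpansion 1 φ ^ r + ∑ k ∈ Finset.range r, qExpansion 1 (c k) *
      qExpansion 1 φ ^ (r - 1 - k) = 0 := by
  have hrel : (⟨qExpansion 1 φ, mem_PC.mpr (IsR.pconv hR)⟩ : PC) ^ r +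
      ∑ k ∈ Finset.range r, (⟨qExpansion 1 (c k), mem_PC.mpr (IsR.pconv (isR_cusp (c k)))⟩ : PC) *
        (⟨qExpansion 1 φ, mem_PC.mpr (IsR.pconv hR)⟩ : PC) ^ (r - 1 - k) = 0 := by
    refine PC_eq_zero fun τ => ?_
    rw [map_add, map_sum, map_pow]
    simp only [map_mul, map_pow, evP_apply, IsR.pev_q hR]
    rw [← hc τ]
    congr 1
    refine Finset.sum_congr rfl fun k _ => ?_
    rw [IsR.pev_q (isR_cusp (c k))]
  have := congrArg (PC.subtype) hrel
  rw [map_add, map_sum, map_pow, map_zero] at this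
  simp only [map_mul, map_pow] at this
  exact this

/-- the product with the Eisenstein series -/
theorem exists_prod {N : ℕ} [NeZero N] {ε : DirichletCharacter ℂ N} {φ A : ℍ → ℂ} (h0 : φ ≠ 0)
    (hS : IsS N 1 φ) (hR : IsR 1 φ)
    (hf : ∀ γ ∈ Gamma0 N, (φ ∣[(1 : ℤ)] γ) = ε ((γ 1 1 : ℤ) : ZMod N) • φ)
    (hA : IsM N 1 A) (hAR : IsR 1 A)
    (hAs : ∀ γ ∈ Gamma0 N, A ∣[(1 : ℤ)] γ = (ε ((γ 1 1 : ℤ) : ZMod N))⁻¹ • A) :
    PConv (cj σ (qExpansion 1 A) * cj σ (qExpansion 1 φ)) := by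
  have hFS : IsS N 2 (A * φ) := by
    have h1 := hA.mulS hS
    have e : (1 + 1 : ℤ) = 2 := by norm_num
    rwa [e] at h1
  have hFinv : ∀ γ ∈ Gamma0 N, (A * φ) ∣[(2 : ℤ)] γ = A * φ := by
    intro γ hγ
    have h1 := ModularForm.mul_slash_SL2 1 1 γ A φ
    have e : (1 + 1 : ℤ) = 2 := by norm_num
    rw [e] at h1
    have hu : ε ((γ 1 1 : ℤ) : ZMod N) ≠ 0 := by
      intro h0'
      have h2 := hf γ hγ
      rw [h0', zero_smul] at h2
      have h3 : (φ ∣[(1 : ℤ)] γ) ∣[(1 : ℤ)] γ⁻¹ = φ := by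
        rw [← SlashAction.slash_mul, mul_inv_cancel, SlashAction.slash_one]
      rw [h2, SlashAction.zero_slash] at h3
      exact h0 h3.symm
    rw [hAs γ hγ, hf γ hγ, smul_mul_smul_comm, inv_mul_cancel₀ hu, one_smul] at h1
    exact h1
  obtain ⟨F', hF'⟩ := exists_cj_S2 σ N (mkCusp0 (A * φ) hFinv hFS)
  have hFq : qExpansion 1 (mkCusp0 (A * φ) hFinv hFS) = qExpansion 1 A * qExpansion 1 φ := by
    ext n
    rw [PowerSeries.coeff_mul]
    exact qc_mul hAR hR n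
  rw [← map_mul, ← hFq, ← hF']
  exact IsR.pconv (isR_cusp0 F')

/-- **(N4)** -/
theorem conjStatement : ConjStatement := by
  intro N _ ε f hf σ
  by_cases hf0 : (⇑f : ℍ → ℂ) = 0
  · refine ⟨0, fun τ => ?_, 0, fun τ => by simp⟩
    have h1 : ∀ n, ModularFormClass.qCoeff f n = 0 := fun n => by
      unfold ModularFormClass.qCoeff
      rw [hf0, qExpansion_zero, map_zero]
    simp only [h1, map_zero, zero_mul]
    exact hasSum_zero
  have hε := odd_of_ne_zero hf0 hf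
  have hS : IsS N 1 f := isS_of_cusp f
  have hR : IsR 1 f := by
    have h1 : (1 : ℝ) ∈ ((Gamma1 N : Subgroup SL(2, ℤ)) :
        Subgroup (GL (Fin 2) ℝ)).strictPeriods := by simp
    exact ⟨SlashInvariantFormClass.periodic_comp_ofComplex f h1, f.holo',
      ModularFormClass.bdd_at_infty f⟩
  obtain ⟨r, hr0, c, hc⟩ := exists_normPoly (Γ := Gamma1 N)
    (fun γ hγ => f.slash_action_eq' _ ⟨γ, hγ, rfl⟩) hS
  obtain ⟨a, ha, ha2, hane⟩ := exists_index ε hε
  have hAR : IsR 1 (eisA ε a) := isR_of_hasSum (hasSum_eisA ε ha ha2)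
  have hAq : qExpansion 1 (eisA ε a) = PowerSeries.mk (eA ε a) := by
    ext n
    rw [PowerSeries.coeff_mk]
    exact hAR.qc_eq (hasSum_eisA ε ha ha2) n
  choose c' hc' using fun k => exists_cj_cusp σ (c k)
  have hrel1 := rel_series hR c hc
  have hrel2 : cj σ (qExpansion 1 f) ^ r + ∑ k ∈ Finset.range r, qExpansion 1 (c' k) *
      cj σ (qExpansion 1 f) ^ (r - 1 - k) = 0 := by
    have := congrArg (cj σ) hrel1
    rw [map_add, map_sum, map_pow, map_zero] at this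
    simp only [map_mul, map_pow, ← hc'] at this
    exact this
  have hQc : PConv (cj σ (qExpansion 1 (eisA ε a))) := by
    rw [hAq]
    exact pconv_cj_eA ε ha ha2 σ
  have hQ0 : cj σ (qExpansion 1 (eisA ε a)) ≠ 0 := by
    intro h
    have h1 := congrArg (PowerSeries.coeff 1) h
    rw [hAq, coeff_cj, PowerSeries.coeff_mk, map_zero, eA_one ε hε, map_eq_zero_iff σ σ.injective]
      at h1
    have h2 : (-(2 * π * I) : ℂ) ≠ 0 := neg_ne_zero.mpr Complex.two_pi_I_ne_zero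
    have h3 := (mul_eq_zero.mp h1).resolve_left h2
    have h4 := (mul_eq_zero.mp h3).resolve_left two_ne_zero
    exact hane (sub_eq_zero.mp h4)
  have hcc : ∀ k, PConv (qExpansion 1 (c' k)) := fun k => IsR.pconv (isR_cusp (c' k))
  have hPc : PConv (cj σ (qExpansion 1 f)) := pconv_of_rel hr0 hQc hQ0
    (exists_prod σ hf0 hS hR hf (isM_eisA ε ha ha2) hAR (eisA_slash ε ha ha2)) hcc hrel2
  refine ⟨fun τ => pev (cj σ (qExpansion 1 f)) (Periodic.qParam 1 τ), fun τ => ?_, ?_⟩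
  · have h1 := hPc.hasSum (norm_q_lt_one τ)
    have e : Periodic.qParam 1 (τ : ℂ) = Complex.exp (2 * π * I * τ) := by
      simp [Periodic.qParam]
    rw [e] at h1
    simp only [coeff_cj] at h1
    show HasSum _ (pev (cj σ (qExpansion 1 f)) (Periodic.qParam 1 τ))
    rw [e]
    exact h1
  · refine bound_of_rel hr0 c' fun τ => ?_
    have h6 := eval_rel' hPc hcc hrel2 (pdisc_q τ)
    simp only [IsR.pev_q (isR_cusp (c' _))] at h6
    exact h6

end Fermat.Agent.DS4
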