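import Fermat.Agent.DS1.Eis4

/-!
# Eisenstein series of weight one with character
-/

set_option autoImplicit false
set_option linter.unusedSectionVars false
set_option linter.style.haveILetI false

noncomputable section

namespace Fermat.Agent.DS4

open UpperHalfPlane hiding I
open Complex
open scoped Real MatrixGroups ModularForm Matrix
open Fermat.Agent.EichlerShimura Fermat.Agent.DS1

variable {N : ℕ} [NeZero N]

lemma xi_zpow (N : ℕ) (b : ℤ) : xi N b = xi N 1 ^ b := by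
  rw [xi, xi, ← Complex.exp_int_mul]
  congr 1
  push_cast
  ring

lemma xi_pow_N : xi N 1 ^ N = 1 := by
  have h : (N : ℂ) ≠ 0 := by exact_mod_cast NeZero.ne N
  rw [xi, ← Complex.exp_nat_mul, Complex.exp_eq_one_iff]
  refine ⟨1, ?_⟩
  push_cast
  field_simp

lemma xi_prim : IsPrimitiveRoot (xi N 1) N := by
  have h := Complex.isPrimitiveRoot_exp N (NeZero.ne N)
  have e : xi N 1 = Complex.exp (2 * π * I / N) := by
    rw [xi]
    congr 1
    push_cast
    ring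
  rw [e]
  exact h

lemma xi_ne_zero : xi N 1 ≠ 0 := xi_prim.ne_zero (NeZero.ne N)

lemma xi_congr {a b : ℤ} (h : (a : ZMod N) = b) : xi N a = xi N b := by
  rw [xi_zpow N a, xi_zpow N b]
  have h1 : (N : ℤ) ∣ a - b := by
    rw [← ZMod.intCast_zmod_eq_zero_iff_dvd]
    push_cast
    rw [h, sub_self]
  obtain ⟨c, hc⟩ := h1
  have e : a = b + N * c := by linarith
  rw [e, zpow_add₀ xi_ne_zero, zpow_mul, zpow_natCast, xi_pow_N, one_zpow, mul_one]

/-- the Gauss sums -/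
def gs (ε : DirichletCharacter ℂ N) (a : ℤ) : ℂ :=
  ∑ d : (ZMod N)ˣ, ε (d : ZMod N) * xi N (a * ((d : ZMod N).val : ℤ))

variable (ε : DirichletCharacter ℂ N)

lemma gs_congr {a b : ℤ} (h : (a : ZMod N) = b) : gs ε a = gs ε b := by
  unfold gs
  refine Finset.sum_congr rfl fun d _ => ?_
  congr 1
  apply xi_congr
  push_cast
  rw [h]

lemma gs_neg (hε : ε (-1) = -1) (a : ℤ) : gs ε (-a) = -gs ε a := by
  unfold gs
  rw [← Finset.sum_neg_distrib]
  refine Finset.sum_nbij' (fun d => -d) (fun d => -d) (by simp) (by simp) (by simp) (by simp) ?_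
  intro d _
  have e1 : ε ((-d : (ZMod N)ˣ) : ZMod N) = -ε (d : ZMod N) := by
    rw [Units.val_neg, ← neg_one_mul, map_mul, hε, neg_one_mul]
  have e2 : xi N (-a * ((d : ZMod N).val : ℤ)) =
      xi N (a * (((-d : (ZMod N)ˣ) : ZMod N).val : ℤ)) := by
    apply xi_congr
    push_cast
    rw [ZMod.natCast_zmod_val, ZMod.natCast_zmod_val]
    ring
  rw [e1, e2]
  ring

lemma norm_gs_le (a : ℤ) : ‖gs ε a‖ ≤ Fintype.card (ZMod N)ˣ := by
  unfold gs
  refine (norm_sum_le _ _).trans ?_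
  refine (Finset.sum_le_card_nsmul _ _ 1 fun d _ => ?_).trans ?_
  · rw [norm_mul, norm_xi, mul_one]
    exact ε.norm_le_one _
  · rw [Finset.card_univ, nsmul_eq_mul, mul_one]

/-- Fourier inversion -/
lemma exists_gs_ne_zero : ∃ a : ℤ, gs ε a ≠ 0 := by
  by_contra hcon
  push Not at hcon
  have h1 : ∑ a ∈ Finset.range N, gs ε a * xi N (-a) = 0 :=
    Finset.sum_eq_zero fun a _ => by rw [hcon, zero_mul]
  have h2 : ∀ a : ℕ, gs ε a * xi N (-a) =
      ∑ d : (ZMod N)ˣ, ε (d : ZMod N) * (xi N (((d : ZMod N).val : ℤ) - 1)) ^ a := by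
    intro a
    unfold gs
    rw [Finset.sum_mul]
    refine Finset.sum_congr rfl fun d _ => ?_
    rw [mul_assoc]
    congr 1
    rw [xi_zpow N (a * _), xi_zpow N (-a), xi_zpow N (_ - 1), ← zpow_add₀ xi_ne_zero,
      ← zpow_natCast, ← zpow_mul]
    congr 1
    ring
  simp only [h2] at h1
  rw [Finset.sum_comm] at h1
  have h3 : ∀ d : (ZMod N)ˣ, ∑ a ∈ Finset.range N,
      ε (d : ZMod N) * (xi N (((d : ZMod N).val : ℤ) - 1)) ^ a = if d = 1 then (N : ℂ) else 0 := by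
    intro d
    rw [← Finset.mul_sum]
    split_ifs with hd
    · subst hd
      have e : xi N ((((1 : (ZMod N)ˣ) : ZMod N).val : ℤ) - 1) = 1 := by
        have : xi N 0 = 1 := by rw [xi_zpow, zpow_zero]
        rw [← this]
        apply xi_congr
        push_cast
        rw [ZMod.natCast_zmod_val]
        simp
      rw [e]
      simp
    · have hz : xi N (((d : ZMod N).val : ℤ) - 1) ≠ 1 := by
        intro h
        rw [xi_zpow, xi_prim.zpow_eq_one_iff_dvd, ← ZMod.intCast_zmod_eq_zero_iff_dvd] at h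
        push_cast at h
        rw [ZMod.natCast_zmod_val, sub_eq_zero] at h
        exact hd (Units.ext h)
      have h4 : (∑ a ∈ Finset.range N, (xi N (((d : ZMod N).val : ℤ) - 1)) ^ a) *
          (xi N (((d : ZMod N).val : ℤ) - 1) - 1) = 0 := by
        rw [geom_sum_mul, xi_zpow, ← zpow_natCast, ← zpow_mul, mul_comm, zpow_mul, zpow_natCast,
          xi_pow_N, one_zpow, sub_self]
      rw [(mul_eq_zero.mp h4).resolve_right (sub_ne_zero.mpr hz), mul_zero]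
  simp only [h3] at h1
  rw [Finset.sum_ite_eq' Finset.univ (1 : (ZMod N)ˣ) (fun _ => (N : ℂ))] at h1
  simp only [Finset.mem_univ, if_true] at h1
  exact NeZero.ne N (by exact_mod_cast h1)

/-- a good index -/
lemma exists_index (hε : ε (-1) = -1) : ∃ a : ℤ, (a : ZMod N) ≠ 0 ∧ ((2 * a : ℤ) : ZMod N) ≠ 0 ∧
    2 * gs ε a ≠ gs ε (2 * a) := by
  by_contra hcon
  push Not at hcon
  have hodd : ∀ a : ℤ, ((2 * a : ℤ) : ZMod N) = 0 → gs ε a = 0 := by
    intro a ha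
    have h1 : gs ε (-a) = gs ε a := by
      apply gs_congr
      push_cast at ha ⊢
      linear_combination -ha
    rw [gs_neg ε hε] at h1
    linear_combination (-1 / 2 : ℂ) * h1
  have h2 : ∀ a : ℤ, 2 * gs ε a = gs ε (2 * a) := by
    intro a
    by_cases h : ((2 * a : ℤ) : ZMod N) = 0
    · rw [hodd a h, hodd (2 * a) (by push_cast at h ⊢; rw [h, mul_zero]), mul_zero]
    · refine hcon a ?_ h
      intro h0
      apply h
      push_cast
      rw [h0, mul_zero]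
  have h3 : ∀ (k : ℕ) (a : ℤ), (2 : ℂ) ^ k * gs ε a = gs ε (2 ^ k * a) := by
    intro k
    induction k with
    | zero => intro a; simp
    | succ k ih =>
      intro a
      rw [pow_succ, mul_assoc, h2, ih]
      congr 1
      ring
  obtain ⟨a, ha⟩ := exists_gs_ne_zero ε
  have hpos : 0 < ‖gs ε a‖ := norm_pos_iff.mpr ha
  obtain ⟨k, hk⟩ := pow_unbounded_of_one_lt ((Fintype.card (ZMod N)ˣ : ℝ) / ‖gs ε a‖)
    (one_lt_two)
  have h4 := norm_gs_le ε (2 ^ k * a)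
  rw [← h3, norm_mul, norm_pow, Complex.norm_ofNat] at h4
  rw [div_lt_iff₀ hpos] at hk
  linarith

/-- the Eisenstein series -/
def eisA (a : ℤ) : ℍ → ℂ :=
  ∑ d : (ZMod N)ˣ, ε (d : ZMod N) • Kf N (vec (a * ((d : ZMod N).val : ℤ)))

lemma nd_vec {b : ℤ} (h : (b : ZMod N) ≠ 0) : ND N (vec b) := by
  intro x hx
  apply h
  have h1 := congrFun hx 1
  simp only [vec, Pi.sub_apply, Pi.smul_apply, Matrix.cons_val_one, Matrix.cons_val_fin_one,
    smul_eq_mul, Pi.zero_apply] at h1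
  have e : b = N * x 1 := by linarith
  rw [e]
  simp

lemma nd_vec2 {b : ℤ} (h : ((2 * b : ℤ) : ZMod N) ≠ 0) : ND N ((2 : ℤ) • vec b) := by
  rw [two_vec]
  exact nd_vec h

lemma unit_mul_ne {b : ℤ} (h : (b : ZMod N) ≠ 0) (d : (ZMod N)ˣ) :
    ((b * ((d : ZMod N).val : ℤ) : ℤ) : ZMod N) ≠ 0 := by
  push_cast
  rw [ZMod.natCast_zmod_val]
  intro h0
  apply h
  rwa [Units.mul_left_eq_zero] at h0

lemma nd_a {a : ℤ} (h : (a : ZMod N) ≠ 0) (d : (ZMod N)ˣ) :
    ND N (vec (a * ((d : ZMod N).val : ℤ))) := nd_vec (unit_mul_ne h d)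

lemma nd_a2 {a : ℤ} (h : ((2 * a : ℤ) : ZMod N) ≠ 0) (d : (ZMod N)ˣ) :
    ND N ((2 : ℤ) • vec (a * ((d : ZMod N).val : ℤ))) := by
  apply nd_vec2
  have := unit_mul_ne h d
  rwa [← mul_assoc]

lemma isM_eisA {a : ℤ} (h : (a : ZMod N) ≠ 0) (h2 : ((2 * a : ℤ) : ZMod N) ≠ 0) :
    IsM N 1 (eisA ε a) :=
  IsM.sum _ fun d _ => (isM_Kf (Nat.pos_of_ne_zero (NeZero.ne N)) (nd_a h d) (nd_a2 h2 d)).smul _

lemma eisA_slash {a : ℤ} (h : (a : ZMod N) ≠ 0) (h2 : ((2 * a : ℤ) : ZMod N) ≠ 0)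
    (γ : SL(2, ℤ)) (hγ : γ ∈ CongruenceSubgroup.Gamma0 N) :
    eisA ε a ∣[(1 : ℤ)] γ = (ε ((γ 1 1 : ℤ) : ZMod N))⁻¹ • eisA ε a := by
  have hN : 0 < N := Nat.pos_of_ne_zero (NeZero.ne N)
  have hγ0 : ((γ 1 0 : ℤ) : ZMod N) = 0 := by
    rwa [CongruenceSubgroup.Gamma0_mem] at hγ
  have hdet : (γ 0 0 : ℤ) * γ 1 1 - γ 0 1 * γ 1 0 = 1 := by
    have := γ.det_coe
    rwa [Matrix.det_fin_two] at this
  have hu : ((γ 0 0 : ℤ) : ZMod N) * ((γ 1 1 : ℤ) : ZMod N) = 1 := by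
    have h3 := congrArg (fun z : ℤ => (z : ZMod N)) hdet
    push_cast at h3
    rw [hγ0, mul_zero, sub_zero] at h3
    exact h3
  set u : (ZMod N)ˣ := ⟨((γ 1 1 : ℤ) : ZMod N), ((γ 0 0 : ℤ) : ZMod N),
    by rw [mul_comm]; exact hu, hu⟩ with hudef
  have hterm : ∀ d : (ZMod N)ˣ, (Kf N (vec (a * ((d : ZMod N).val : ℤ)))) ∣[(1 : ℤ)] γ =
      Kf N (vec (a * (((d * u : (ZMod N)ˣ) : ZMod N).val : ℤ))) := by
    intro d
    rw [Kf_slash]
    symm
    refine Kf_congr hN ((nd_a h d).vm γ) (ND.vm2 (nd_a2 h2 d) γ) ?_ ?_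
    · rw [← ZMod.intCast_zmod_eq_zero_iff_dvd]
      simp [vec, Matrix.vecMul, dotProduct, Fin.sum_univ_two, hγ0]
    · rw [← ZMod.intCast_zmod_eq_zero_iff_dvd]
      simp only [vec, Matrix.cons_val_one, Matrix.cons_val_fin_one, Matrix.vecMul, dotProduct,
        Fin.sum_univ_two, Matrix.cons_val_zero, zero_mul, zero_add]
      push_cast
      rw [ZMod.natCast_zmod_val, ZMod.natCast_zmod_val]
      have hu' : (u : ZMod N) = ((γ 1 1 : ℤ) : ZMod N) := rfl
      rw [hu']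
      ring
  unfold eisA
  rw [SlashAction.sum_slash, Finset.smul_sum]
  refine Finset.sum_nbij' (fun d => d * u) (fun d => d * u⁻¹) (by simp) (by simp) (by simp)
    (by simp) ?_
  intro d _
  rw [ModularForm.SL_smul_slash, hterm, smul_smul]
  congr 1
  have h5 : ε (u : ZMod N) ≠ 0 := (ε.toUnitHom u).ne_zero
  have e : ε (((d * u : (ZMod N)ˣ)) : ZMod N) = ε (d : ZMod N) * ε (u : ZMod N) := by
    rw [Units.val_mul, map_mul]
  rw [e]
  show _ = (ε (u : ZMod N))⁻¹ * _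
  field_simp

/-- the coefficients -/
def eA (a : ℤ) (n : ℕ) : ℂ :=
  ∑ d : (ZMod N)ˣ, ε (d : ZMod N) * (2 * π * I * ec (xi N (a * ((d : ZMod N).val : ℤ))) n)

lemma hasSum_eisA {a : ℤ} (h : (a : ZMod N) ≠ 0) (h2 : ((2 * a : ℤ) : ZMod N) ≠ 0) (τ : ℍ) :
    HasSum (fun n : ℕ => eA ε a n * Complex.exp (2 * π * I * τ) ^ n) (eisA ε a τ) := by
  have h1 : ∀ d : (ZMod N)ˣ, HasSum (fun n : ℕ => ε (d : ZMod N) *
      ((2 * π * I * ec (xi N (a * ((d : ZMod N).val : ℤ))) n) * Complex.exp (2 * π * I * τ) ^ n))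
      (ε (d : ZMod N) * Kf N (vec (a * ((d : ZMod N).val : ℤ))) τ) := fun d =>
    (hasSum_Kf (Nat.pos_of_ne_zero (NeZero.ne N)) (nd_a h d) (nd_a2 h2 d) τ).mul_left _
  have h3 := hasSum_sum (s := (Finset.univ : Finset (ZMod N)ˣ)) fun d _ => h1 d
  have e1 : eisA ε a τ = ∑ d : (ZMod N)ˣ, ε (d : ZMod N) *
      Kf N (vec (a * ((d : ZMod N).val : ℤ))) τ := by
    unfold eisA
    rw [Finset.sum_apply]
    rfl
  rw [e1]
  refine h3.congr_fun ?_ |> fun h => h
  intro n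
  unfold eA
  rw [Finset.sum_mul]
  exact Finset.sum_congr rfl fun d _ => by ring

end Fermat.Agent.DS4
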