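import Fermat.Agent.DS1.Eis4
import Fermat.Agent.DS4.LvlOne

/-!
# The characteristic polynomial over level one
-/

set_option autoImplicit false
set_option linter.unusedSectionVars false
set_option linter.style.haveILetI false

noncomputable section

namespace Fermat.Agent.DS4

open UpperHalfPlane hiding I
open ModularForm ModularFormClass MatrixGroups EisensteinSeries
open Fermat.Agent.EichlerShimura Fermat.Agent.DS1

/-- cusp forms of level one from functions -/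
def mkCusp {M : ℕ} {k : ℤ} (g : ℍ → ℂ) (hinv : ∀ δ : SL(2, ℤ), g ∣[k] δ = g) (hq : IsQ M g) :
    CuspForm 𝒮ℒ k where
  toFun := g
  slash_action_eq' A hA := by
    obtain ⟨A, rfl⟩ := hA
    exact hinv A
  holo' := hq.holo
  zero_at_cusps' hc := by
    rw [Subgroup.IsArithmetic.isCusp_iff_isCusp_SL2Z] at hc
    rw [OnePoint.isZeroAt_iff_forall_SL2Z hc]
    intro γ _
    rw [hinv]
    exact hq.zero

section

variable {Γ : Subgroup SL(2, ℤ)} {M : ℕ} {φ : ℍ → ℂ}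

/-- the translates -/
def tr (hinv : ∀ γ ∈ Γ, φ ∣[(1 : ℤ)] γ = φ) (q : SL(2, ℤ) ⧸ Γ) : ℍ → ℂ :=
  Quotient.liftOn' q (fun g => φ ∣[(1 : ℤ)] g⁻¹) fun a b hab => by
    rw [QuotientGroup.leftRel_apply] at hab
    have h1 := hinv _ hab
    have e : b⁻¹ = (a⁻¹ * b)⁻¹ * a⁻¹ := by group
    show φ ∣[(1 : ℤ)] a⁻¹ = φ ∣[(1 : ℤ)] b⁻¹
    rw [e, SlashAction.slash_mul, hinv _ (Γ.inv_mem hab)]

lemma tr_mk (hinv : ∀ γ ∈ Γ, φ ∣[(1 : ℤ)] γ = φ) (g : SL(2, ℤ)) :
    tr hinv (g : SL(2, ℤ) ⧸ Γ) = φ ∣[(1 : ℤ)] g⁻¹ := rfl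

lemma tr_slash (hinv : ∀ γ ∈ Γ, φ ∣[(1 : ℤ)] γ = φ) (q : SL(2, ℤ) ⧸ Γ) (δ : SL(2, ℤ)) :
    tr hinv q ∣[(1 : ℤ)] δ = tr hinv (δ⁻¹ • q) := by
  induction q using QuotientGroup.induction_on with
  | H g =>
    rw [tr_mk, ← SlashAction.slash_mul]
    show _ = tr hinv ((δ⁻¹ * g : SL(2, ℤ)) : SL(2, ℤ) ⧸ Γ)
    rw [tr_mk]
    congr 1
    group

lemma isQ_tr (hinv : ∀ γ ∈ Γ, φ ∣[(1 : ℤ)] γ = φ) (hS : IsS M 1 φ) (q : SL(2, ℤ) ⧸ Γ) :
    IsQ M (tr hinv q) := by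
  induction q using QuotientGroup.induction_on with
  | H g => exact hS _

lemma isQ_prod {κ : Type*} {F : κ → ℍ → ℂ} (h : ∀ i, IsQ M (F i)) (s : Finset κ)
    (hs : s.Nonempty) : IsQ M (∏ i ∈ s, F i) := by
  classical
  induction hs using Finset.Nonempty.cons_induction with
  | singleton a => rw [Finset.prod_singleton]; exact h a
  | cons a s ha hs ih =>
    rw [Finset.prod_cons]
    exact (h a).isR.mulQ ih

variable [Fintype (SL(2, ℤ) ⧸ Γ)]

/-- the elementary symmetric functions -/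
def es (hinv : ∀ γ ∈ Γ, φ ∣[(1 : ℤ)] γ = φ) (k : ℕ) : ℍ → ℂ :=
  ∑ s ∈ Finset.powersetCard k Finset.univ, ∏ q ∈ s, tr hinv q

lemma prod_slash_SL (hinv : ∀ γ ∈ Γ, φ ∣[(1 : ℤ)] γ = φ) (s : Finset (SL(2, ℤ) ⧸ Γ)) (k : ℕ)
    (hs : s.card = k) (δ : SL(2, ℤ)) :
    (∏ q ∈ s, tr hinv q) ∣[(k : ℤ)] δ = ∏ q ∈ s, tr hinv (δ⁻¹ • q) := by
  have h := ModularForm.prod_slash (k := 1) (g := (Matrix.SpecialLinearGroup.mapGL ℝ δ))
    (f := tr hinv) (s := s)
  have h1 : (∏ q ∈ s, tr hinv q) ∣[(k : ℤ)] δ =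
      (∏ q ∈ s, tr hinv q) ∣[(1 : ℤ) * (s.card : ℤ)] (Matrix.SpecialLinearGroup.mapGL ℝ δ) := by
    rw [one_mul, hs]
    rfl
  rw [h1, h]
  have h2 : |(Matrix.SpecialLinearGroup.mapGL ℝ δ).det.val| = 1 := by simp
  rw [h2, one_zpow, one_smul]
  refine Finset.prod_congr rfl fun q _ => ?_
  rw [← tr_slash]
  rfl

lemma es_slash (hinv : ∀ γ ∈ Γ, φ ∣[(1 : ℤ)] γ = φ) (k : ℕ) (δ : SL(2, ℤ)) :
    es hinv k ∣[(k : ℤ)] δ = es hinv k := by
  classical
  unfold es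
  rw [SlashAction.sum_slash]
  rw [Finset.sum_congr rfl fun s hs => prod_slash_SL hinv s k (Finset.mem_powersetCard.mp hs).2 δ]
  refine Finset.sum_nbij' (fun s => s.image (fun q => δ⁻¹ • q)) (fun s => s.image (fun q => δ • q))
    ?_ ?_ ?_ ?_ ?_
  · intro s hs
    rw [Finset.mem_powersetCard] at hs ⊢
    refine ⟨Finset.subset_univ _, ?_⟩
    rw [Finset.card_image_of_injective _ (MulAction.injective _), hs.2]
  · intro s hs
    rw [Finset.mem_powersetCard] at hs ⊢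
    refine ⟨Finset.subset_univ _, ?_⟩
    rw [Finset.card_image_of_injective _ (MulAction.injective _), hs.2]
  · intro s _
    rw [Finset.image_image]
    have e : ((fun q : SL(2, ℤ) ⧸ Γ => δ • q) ∘ fun q => δ⁻¹ • q) = id := by
      funext q
      simp
    rw [e, Finset.image_id]
  · intro s _
    rw [Finset.image_image]
    have e : ((fun q : SL(2, ℤ) ⧸ Γ => δ⁻¹ • q) ∘ fun q => δ • q) = id := by
      funext q
      simp
    rw [e, Finset.image_id]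
  · intro s _
    rw [Finset.prod_image fun a _ b _ h => MulAction.injective _ h]

lemma isQ_es (hinv : ∀ γ ∈ Γ, φ ∣[(1 : ℤ)] γ = φ) (hS : IsS M 1 φ) {k : ℕ} (hk : 0 < k) :
    IsQ M (es hinv k) := by
  unfold es
  refine IsQ.sum _ fun s hs => isQ_prod (isQ_tr hinv hS) s ?_
  rw [Finset.mem_powersetCard] at hs
  exact Finset.card_pos.mp (by omega)

end

theorem exists_normPoly {Γ : Subgroup SL(2, ℤ)} [Γ.FiniteIndex] {M : ℕ} {φ : ℍ → ℂ}
    (hinv : ∀ γ ∈ Γ, φ ∣[(1 : ℤ)] γ = φ) (hS : IsS M 1 φ) :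
    ∃ r : ℕ, 0 < r ∧ ∃ c : ∀ k : ℕ, CuspForm 𝒮ℒ ((k : ℤ) + 1), ∀ τ : ℍ,
      φ τ ^ r + ∑ k ∈ Finset.range r, c k τ * φ τ ^ (r - 1 - k) = 0 := by
  classical
  haveI : Finite (SL(2, ℤ) ⧸ Γ) := Subgroup.finite_quotient_of_finiteIndex
  haveI : Fintype (SL(2, ℤ) ⧸ Γ) := Fintype.ofFinite _
  set r := Fintype.card (SL(2, ℤ) ⧸ Γ) with hr
  have hr0 : 0 < r := Fintype.card_pos
  refine ⟨r, hr0, fun k => mkCusp (M := M) ((-1 : ℂ) ^ (k + 1) • es hinv (k + 1)) ?_ ?_, fun τ => ?_⟩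
  · intro δ
    rw [ModularForm.SL_smul_slash]
    have := es_slash hinv (k + 1) δ
    push_cast at this
    rw [this]
  · exact DS1.IsQ.smul' _ (isQ_es hinv hS (Nat.succ_pos k))
  · have h1 := Multiset.prod_X_sub_X_eq_sum_esymm
      ((Finset.univ : Finset (SL(2, ℤ) ⧸ Γ)).val.map (fun q => tr hinv q τ))
    have h2 := congrArg (Polynomial.eval (φ τ)) h1
    rw [Polynomial.eval_multiset_prod] at h2
    have h3 : (Multiset.map (Polynomial.eval (φ τ)) (Multiset.map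
        (fun t => Polynomial.X - Polynomial.C t)
        ((Finset.univ : Finset (SL(2, ℤ) ⧸ Γ)).val.map (fun q => tr hinv q τ)))).prod = 0 := by
      refine Multiset.prod_eq_zero ?_
      rw [Multiset.mem_map]
      refine ⟨Polynomial.X - Polynomial.C (tr hinv ((1 : SL(2, ℤ)) : SL(2, ℤ) ⧸ Γ) τ), ?_, ?_⟩
      · rw [Multiset.mem_map]
        refine ⟨_, ?_, rfl⟩
        rw [Multiset.mem_map]
        exact ⟨_, Finset.mem_univ_val _, rfl⟩
      · rw [Polynomial.eval_sub, Polynomial.eval_X, Polynomial.eval_C, tr_mk, inv_one,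
          SlashAction.slash_one, sub_self]
    rw [h3] at h2
    rw [Polynomial.eval_finsetSum, Finset.sum_range_succ'] at h2
    simp only [Multiset.card_map, Finset.card_val, Finset.card_univ, ← hr, Polynomial.eval_mul,
      Polynomial.eval_pow, Polynomial.eval_neg, Polynomial.eval_one, Polynomial.eval_C,
      Polynomial.eval_X, Finset.esymm_map_val, pow_zero, one_mul, Nat.sub_zero] at h2
    have h4 : ∑ s ∈ Finset.powersetCard 0 (Finset.univ : Finset (SL(2, ℤ) ⧸ Γ)),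
        ∏ q ∈ s, tr hinv q τ = 1 := by simp
    rw [h4, one_mul] at h2
    rw [h2, add_comm]
    congr 1
    refine Finset.sum_congr rfl fun k hk => ?_
    have h5 : (mkCusp (M := M) ((-1 : ℂ) ^ (k + 1) • es hinv (k + 1)) (by
        intro δ
        rw [ModularForm.SL_smul_slash]
        have := es_slash hinv (k + 1) δ
        push_cast at this
        rw [this]) (DS1.IsQ.smul' _ (isQ_es hinv hS (Nat.succ_pos k))) : CuspForm 𝒮ℒ ((k : ℤ) + 1)) τ =
        (-1 : ℂ) ^ (k + 1) * ∑ s ∈ Finset.powersetCard (k + 1)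
          (Finset.univ : Finset (SL(2, ℤ) ⧸ Γ)), ∏ q ∈ s, tr hinv q τ := by
      show ((-1 : ℂ) ^ (k + 1) • es hinv (k + 1)) τ = _
      rw [Pi.smul_apply, smul_eq_mul, es, Finset.sum_apply]
      simp only [Finset.prod_apply]
    rw [h5]
    have h6 : r - (k + 1) = r - 1 - k := by omega
    rw [h6]
    ring

end Fermat.Agent.DS4
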